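/-
S55 (Poitou–Tate), block G3 (abstract core): transport of group cohomology along group
isomorphisms, restriction to nested subgroups.
Owner: helper10.  Prefix `dv_`.
-/
import Mathlib

set_option autoImplicit false

noncomputable section

namespace Fermat.Agent.S55

open CategoryTheory groupCohomology

universe u

variable {k G G' : Type u} [CommRing k] [Group G] [Group G']

/-- A morphism of representations `res f A ⟶ res f' A` for two equal group homomorphisms. -/
def dv_resCongrHom {f f' : G →* G'} (h : f = f') (A : Rep k G') : Rep.res f A ⟶ Rep.res f' A :=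
  Rep.ofHom ⟨LinearMap.id, fun g => by subst h; rfl⟩

@[simp]
theorem dv_resCongrHom_apply {f f' : G →* G'} (h : f = f') (A : Rep k G') (x : A.V) :
    (dv_resCongrHom h A).hom x = x := rfl

theorem dv_resCongrHom_rfl (f : G →* G') (A : Rep k G') : dv_resCongrHom (rfl : f = f) A = 𝟙 _ :=
  rfl

/-- `groupCohomology.map` only depends on the group homomorphism up to equality. -/
theorem dv_map_congr {f f' : G →* G'} (h : f = f') {A : Rep k G'} {B : Rep k G}
    (φ : Rep.res f' A ⟶ B) (n : ℕ) :
    map f' φ n = map f (dv_resCongrHom h A ≫ φ) n := by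
  subst h
  rw [dv_resCongrHom_rfl, Category.id_comp]

theorem dv_resCongrHom_comp {f f' f'' : G →* G'} (h : f = f') (h' : f' = f'') (A : Rep k G') :
    dv_resCongrHom h A ≫ dv_resCongrHom h' A = dv_resCongrHom (h.trans h') A := by
  subst h h'
  rfl

theorem dv_comp_symm (e : G ≃* G') :
    (e : G →* G').comp (e.symm : G' →* G) = MonoidHom.id G' := by
  ext x
  simp

theorem dv_symm_comp (e : G ≃* G') :
    (e.symm : G' →* G).comp (e : G →* G') = MonoidHom.id G := by
  ext x
  simp

/-- The isomorphism on group cohomology induced by a group isomorphism. -/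
def dv_mapIso (e : G ≃* G') (A : Rep k G') (n : ℕ) :
    groupCohomology A n ≅ groupCohomology (Rep.res (e : G →* G') A) n where
  hom := map (e : G →* G') (𝟙 _) n
  inv := map (e.symm : G' →* G) (dv_resCongrHom (dv_comp_symm e) A) n
  hom_inv_id := by
    rw [← map_comp, dv_map_congr (dv_comp_symm e).symm]
    have : dv_resCongrHom (dv_comp_symm e).symm A ≫
        ((Rep.resFunctor (e.symm : G' →* G)).map (𝟙 (Rep.res (e : G →* G') A)) ≫
          dv_resCongrHom (dv_comp_symm e) A) = 𝟙 A := by
      ext x
      rfl
    rw [this, map_id]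
  inv_hom_id := by
    rw [← map_comp, dv_map_congr (dv_symm_comp e).symm]
    have : dv_resCongrHom (dv_symm_comp e).symm (Rep.res (e : G →* G') A) ≫
        ((Rep.resFunctor (e : G →* G')).map (dv_resCongrHom (dv_comp_symm e) A) ≫
          𝟙 (Rep.res (e : G →* G') A)) = 𝟙 (Rep.res (e : G →* G') A) := by
      ext x
      rfl
    rw [this, map_id]

theorem dv_mapIso_hom (e : G ≃* G') (A : Rep k G') (n : ℕ) :
    (dv_mapIso e A n).hom = map (e : G →* G') (𝟙 _) n := rfl

/-- Subsingleton-ness of cohomology is invariant under group isomorphisms. -/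
theorem dv_subsingleton_iff (e : G ≃* G') (A : Rep k G') (n : ℕ) :
    Subsingleton (groupCohomology (Rep.res (e : G →* G') A) n) ↔
      Subsingleton (groupCohomology A n) :=
  (dv_mapIso e A n).toLinearEquiv.toEquiv.subsingleton_congr.symm

theorem dv_finite_iff (e : G ≃* G') (A : Rep k G') (n : ℕ) :
    Finite (groupCohomology (Rep.res (e : G →* G') A) n) ↔ Finite (groupCohomology A n) :=
  (dv_mapIso e A n).toLinearEquiv.toEquiv.finite_iff.symm

theorem dv_natCard_eq (e : G ≃* G') (A : Rep k G') (n : ℕ) :
    Nat.card (groupCohomology (Rep.res (e : G →* G') A) n) = Nat.card (groupCohomology A n) :=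
  (Nat.card_congr (dv_mapIso e A n).toLinearEquiv.toEquiv).symm

end Fermat.Agent.S55
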