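/-
S55 (Poitou–Tate), block G3 (abstract core): devissage over p-groups.
If all cyclic layers of degree `p` of a `Γ`-module `C` have trivial `H¹` and `H²` of order
dividing `p`, then every `p`-subgroup `H ≤ Γ` has `H¹(H, C) = 0` and `|H²(H, C)|` divides `|H|`.
Owner: helper10.  Prefix `dv_`.
-/
import Mathlib
import Fermat.Agent.S55.Devissage.Transport

set_option autoImplicit false

noncomputable section

namespace Fermat.Agent.S55

open CategoryTheory groupCohomology

universe u

/-! ### Restriction to nested subgroups -/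

section Nested

variable {k Γ : Type u} [CommRing k] [Group Γ] (C : Rep k Γ)

theorem dv_subtype_comp_equivMap (H : Subgroup Γ) (N : Subgroup H) :
    ((N.map H.subtype).subtype).comp
        (N.equivMapOfInjective H.subtype H.subtype_injective : N →* N.map H.subtype) =
      H.subtype.comp N.subtype := by
  ext x
  rfl

/-- Cohomology of `N ≤ H` acting through `H` versus cohomology of the image of `N` in `Γ`:
`Subsingleton` transfers. -/
theorem dv_subsingleton_nested (H : Subgroup Γ) (N : Subgroup H) (n : ℕ)
    (h : Subsingleton (groupCohomology (Rep.res (N.map H.subtype).subtype C) n)) :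
    Subsingleton (groupCohomology (Rep.res N.subtype (Rep.res H.subtype C)) n) := by
  have h1 := (dv_subsingleton_iff (N.equivMapOfInjective H.subtype H.subtype_injective)
    (Rep.res (N.map H.subtype).subtype C) n).mpr h
  have h2 : Rep.res (N.equivMapOfInjective H.subtype H.subtype_injective : N →* N.map H.subtype)
      (Rep.res (N.map H.subtype).subtype C) = Rep.res N.subtype (Rep.res H.subtype C) := by
    show Rep.res (((N.map H.subtype).subtype).comp
        (N.equivMapOfInjective H.subtype H.subtype_injective : N →* N.map H.subtype)) C =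
      Rep.res (H.subtype.comp N.subtype) C
    rw [dv_subtype_comp_equivMap]
  rwa [h2] at h1

theorem dv_finite_card_nested (H : Subgroup Γ) (N : Subgroup H) (n : ℕ)
    (h : Finite (groupCohomology (Rep.res (N.map H.subtype).subtype C) n)) :
    Finite (groupCohomology (Rep.res N.subtype (Rep.res H.subtype C)) n) ∧
      Nat.card (groupCohomology (Rep.res N.subtype (Rep.res H.subtype C)) n) =
        Nat.card (groupCohomology (Rep.res (N.map H.subtype).subtype C) n) := by
  have h1 := (dv_finite_iff (N.equivMapOfInjective H.subtype H.subtype_injective)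
    (Rep.res (N.map H.subtype).subtype C) n).mpr h
  have h1' := dv_natCard_eq (N.equivMapOfInjective H.subtype H.subtype_injective)
    (Rep.res (N.map H.subtype).subtype C) n
  have h2 : Rep.res (N.equivMapOfInjective H.subtype H.subtype_injective : N →* N.map H.subtype)
      (Rep.res (N.map H.subtype).subtype C) = Rep.res N.subtype (Rep.res H.subtype C) := by
    show Rep.res (((N.map H.subtype).subtype).comp
        (N.equivMapOfInjective H.subtype H.subtype_injective : N →* N.map H.subtype)) C =
      Rep.res (H.subtype.comp N.subtype) C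
    rw [dv_subtype_comp_equivMap]
  rw [h2] at h1 h1'
  exact ⟨h1, h1'⟩

end Nested

/-! ### The hypotheses -/

/-- The cyclic-layer hypothesis: for every subgroup `H ≤ Γ` and every normal subgroup `N` of `H`
of index `p`, the `H/N`-module `C^N` has trivial `H¹` and `H²` of order dividing `p`. -/
def dv_CyclicLayers {k Γ : Type u} [CommRing k] [Group Γ] (p : ℕ) (C : Rep k Γ) : Prop :=
  ∀ (H : Subgroup Γ) (N : Subgroup H) [N.Normal], N.index = p →
    Subsingleton (H1 ((Rep.res H.subtype C).quotientToInvariants N)) ∧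
    Finite (H2 ((Rep.res H.subtype C).quotientToInvariants N)) ∧
    Nat.card (H2 ((Rep.res H.subtype C).quotientToInvariants N)) ∣ p

/-- The inflation map `H²(G/S, A^S) ⟶ H²(G, A)` (same conventions as Mathlib's `H1InfRes`). -/
abbrev dv_inf2 {k G : Type u} [CommRing k] [Group G] (A : Rep k G) (S : Subgroup G)
    [S.Normal] : H2 (A.quotientToInvariants S) ⟶ H2 A :=
  groupCohomology.map (QuotientGroup.mk' S) (Rep.ofHom <| A.ρ.quotientToInvariants_lift S) 2

/-- The restriction map `H²(G, A) ⟶ H²(S, A)`. -/
abbrev dv_res2 {k G : Type u} [CommRing k] [Group G] (A : Rep k G) (S : Subgroup G) :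
    H2 A ⟶ H2 (Rep.res S.subtype A) :=
  groupCohomology.map S.subtype (𝟙 (Rep.res S.subtype A)) 2

/-- Inflation–restriction in degree 2 for `(G, A, S)`: if `H¹(S, A) = 0` then
`0 → H²(G/S, A^S) → H²(G, A) → H²(S, A)` is exact. -/
def dv_InfRes2At {k G : Type u} [CommRing k] [Group G] (A : Rep k G) (S : Subgroup G)
    [S.Normal] : Prop :=
  Subsingleton (H1 (Rep.res S.subtype A)) →
    Function.Injective (dv_inf2 A S).hom ∧
    ∀ x : H2 A, (dv_res2 A S).hom x = 0 → ∃ y, (dv_inf2 A S).hom y = x

/-- Inflation–restriction in degree 2 for all layers inside `Γ`. -/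
def dv_InfRes2 {k Γ : Type u} [CommRing k] [Group Γ] (C : Rep k Γ) : Prop :=
  ∀ (H : Subgroup Γ) (N : Subgroup H) [N.Normal], dv_InfRes2At (Rep.res H.subtype C) N

/-! ### Normal subgroups of index `p` in `p`-groups -/

theorem dv_exists_normal_index (p : ℕ) [hp : Fact p.Prime] {G : Type*} [Group G] [Finite G]
    {n : ℕ} (hG : Nat.card G = p ^ (n + 1)) :
    ∃ N : Subgroup G, N.Normal ∧ N.index = p ∧ Nat.card N = p ^ n := by
  obtain ⟨N, hN⟩ := Sylow.exists_subgroup_card_pow_prime p (G := G) (n := n)
    (by rw [hG]; exact pow_dvd_pow p (Nat.le_succ n))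
  have hidx : N.index = p := by
    have h := N.card_mul_index
    rw [hN, hG, pow_succ] at h
    exact Nat.eq_of_mul_eq_mul_left (pow_pos hp.out.pos n) h
  refine ⟨N, ?_, hidx, hN⟩
  apply Subgroup.normal_of_index_eq_minFac_card
  rw [hidx, hG]
  exact (Nat.Prime.pow_minFac hp.out (Nat.succ_ne_zero n)).symm

/-! ### Degree one -/

section Main

variable {k Γ : Type u} [CommRing k] [Group Γ] [Finite Γ] (p : ℕ) [hp : Fact p.Prime]
  (C : Rep k Γ)

theorem dv_pgroup_H1_aux (hcyc : dv_CyclicLayers p C) :
    ∀ (n : ℕ) (H : Subgroup Γ), Nat.card H = p ^ n →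
      Subsingleton (H1 (Rep.res H.subtype C))
  | 0, H, hH => by
    have : Subsingleton H := (Nat.card_eq_one_iff_unique.mp (by simpa using hH)).1
    exact ModuleCat.subsingleton_of_isZero
      (isZero_groupCohomology_succ_of_subsingleton (Rep.res H.subtype C) 0)
  | n + 1, H, hH => by
    obtain ⟨N, hNn, hidx, hNc⟩ := dv_exists_normal_index p hH
    haveI := hNn
    have h1 := (hcyc H N hidx).1
    have h3 : Subsingleton (H1 (Rep.res N.subtype (Rep.res H.subtype C))) :=
      dv_subsingleton_nested C H N 1 (dv_pgroup_H1_aux hcyc n (N.map H.subtype)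
        (by rw [Subgroup.card_map_of_injective H.subtype_injective]; exact hNc))
    have hex := (ShortComplex.moduleCat_exact_iff _).mp (H1InfRes_exact (Rep.res H.subtype C) N)
    refine ⟨fun x y => ?_⟩
    have key : ∀ z : H1 (Rep.res H.subtype C), z = 0 := by
      intro z
      obtain ⟨w, hw⟩ := hex z (Subsingleton.elim (α := H1 (Rep.res N.subtype (Rep.res H.subtype C)))
        _ _)
      have hw0 : w = 0 := Subsingleton.elim (α := H1 ((Rep.res H.subtype C).quotientToInvariants N))
        _ _
      rw [← hw, hw0]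
      exact map_zero _
    rw [key x, key y]

/-- **Devissage, degree 1.** If all cyclic layers of degree `p` have trivial `H¹`, then every
`p`-subgroup `H ≤ Γ` has `H¹(H, C) = 0`. -/
theorem dv_pgroup_H1 (hcyc : dv_CyclicLayers p C) (H : Subgroup Γ) (hH : IsPGroup p H) :
    Subsingleton (H1 (Rep.res H.subtype C)) := by
  obtain ⟨n, hn⟩ := hH.exists_card_eq
  exact dv_pgroup_H1_aux p C hcyc n H hn

/-! ### Degree two -/

/-- Counting in an exact sequence `X₁ → X₂ → X₃` of abelian groups. -/
theorem dv_card_dvd_of_exact {X₁ X₂ X₃ : Type*} [AddCommGroup X₁] [AddCommGroup X₂]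
    [AddCommGroup X₃] (f : X₁ →+ X₂) (g : X₂ →+ X₃)
    (hex : ∀ x, g x = 0 → ∃ y, f y = x) [Finite X₁] [Finite X₃] :
    Finite X₂ ∧ Nat.card X₂ ∣ Nat.card X₁ * Nat.card X₃ := by
  have hle : g.ker ≤ f.range := fun x hx => hex x hx
  have hfin_range : Finite f.range := Finite.of_surjective f.rangeRestrict f.rangeRestrict_surjective
  have hfin_ker : Finite g.ker :=
    Finite.of_injective (AddSubgroup.inclusion hle) (AddSubgroup.inclusion_injective hle)
  have hfin_quot : Finite (X₂ ⧸ g.ker) :=
    Finite.of_equiv _ (QuotientAddGroup.quotientKerEquivRange g).symm.toEquiv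
  have hfin : Finite X₂ :=
    Finite.of_equiv _ (AddSubgroup.addGroupEquivQuotientProdAddSubgroup (s := g.ker)).symm
  refine ⟨hfin, ?_⟩
  rw [AddSubgroup.card_eq_card_quotient_mul_card_addSubgroup g.ker,
    Nat.card_congr (QuotientAddGroup.quotientKerEquivRange g).toEquiv, mul_comm]
  exact Nat.mul_dvd_mul ((AddSubgroup.card_dvd_of_le hle).trans (AddSubgroup.card_range_dvd f))
    (AddSubgroup.card_addSubgroup_dvd_card _)

theorem dv_pgroup_H2_aux (hir : dv_InfRes2 C) (hcyc : dv_CyclicLayers p C) :
    ∀ (n : ℕ) (H : Subgroup Γ), Nat.card H = p ^ n →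
      Finite (H2 (Rep.res H.subtype C)) ∧ Nat.card (H2 (Rep.res H.subtype C)) ∣ p ^ n
  | 0, H, hH => by
    have : Subsingleton H := (Nat.card_eq_one_iff_unique.mp (by simpa using hH)).1
    have hs : Subsingleton (H2 (Rep.res H.subtype C)) := ModuleCat.subsingleton_of_isZero
      (isZero_groupCohomology_succ_of_subsingleton (Rep.res H.subtype C) 1)
    refine ⟨inferInstance, ?_⟩
    rw [Nat.card_unique, pow_zero]
  | n + 1, H, hH => by
    obtain ⟨N, hNn, hidx, hNc⟩ := dv_exists_normal_index p hH
    haveI := hNn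
    obtain ⟨-, h1fin, h1card⟩ := hcyc H N hidx
    have hNc' : Nat.card (N.map H.subtype) = p ^ n := by
      rw [Subgroup.card_map_of_injective H.subtype_injective]; exact hNc
    obtain ⟨h3fin', h3card'⟩ := dv_pgroup_H2_aux hir hcyc n (N.map H.subtype) hNc'
    obtain ⟨h3fin, h3card⟩ := dv_finite_card_nested C H N 2 h3fin'
    have hH1N : Subsingleton (H1 (Rep.res N.subtype (Rep.res H.subtype C))) :=
      dv_subsingleton_nested C H N 1 (dv_pgroup_H1_aux p C hcyc n (N.map H.subtype) hNc')
    obtain ⟨-, hex⟩ := hir H N hH1N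
    obtain ⟨hfin, hcard⟩ := dv_card_dvd_of_exact
      (dv_inf2 (Rep.res H.subtype C) N).hom.toAddMonoidHom
      (dv_res2 (Rep.res H.subtype C) N).hom.toAddMonoidHom hex
    refine ⟨hfin, hcard.trans ?_⟩
    rw [h3card, pow_succ, mul_comm]
    exact Nat.mul_dvd_mul h3card' h1card

/-- **Devissage, degree 2.** If all cyclic layers of degree `p` have trivial `H¹` and `H²` of
order dividing `p`, then every `p`-subgroup `H ≤ Γ` has `|H²(H, C)|` dividing `|H|`. -/
theorem dv_pgroup_H2 (hir : dv_InfRes2 C) (hcyc : dv_CyclicLayers p C) (H : Subgroup Γ)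
    (hH : IsPGroup p H) :
    Finite (H2 (Rep.res H.subtype C)) ∧ Nat.card (H2 (Rep.res H.subtype C)) ∣ Nat.card H := by
  obtain ⟨n, hn⟩ := hH.exists_card_eq
  rw [hn]
  exact dv_pgroup_H2_aux p C hir hcyc n H hn

end Main

end Fermat.Agent.S55
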