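/-
S55 (Poitou–Tate), block G3: the inflation–restriction hypothesis `dv_InfRes2` of
`Devissage/PLayers.lean` is discharged by `FinGrp/InfRes2.lean` (helper21), so the degree-2
devissage over `p`-groups is unconditional.
Owner: helper10.  Prefix `dv_`.
-/
import Mathlib
import Fermat.Agent.S55.Devissage.PLayers
import Fermat.Agent.S55.FinGrp.InfRes2

set_option autoImplicit false

noncomputable section

namespace Fermat.Agent.S55

open CategoryTheory groupCohomology

universe u

/-- Inflation–restriction in degree 2 holds for every `(G, A, S)`. -/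
theorem dv_infRes2At {k G : Type u} [CommRing k] [Group G] (A : Rep k G) (S : Subgroup G)
    [S.Normal] : dv_InfRes2At A S :=
  fun h1 => ir_H2InfRes_both A S h1

/-- Inflation–restriction in degree 2 holds for all layers. -/
theorem dv_infRes2 {k Γ : Type u} [CommRing k] [Group Γ] (C : Rep k Γ) : dv_InfRes2 C :=
  fun H N _ => dv_infRes2At (Rep.res H.subtype C) N

/-- **Devissage, degree 2, unconditional form.** If all cyclic layers of degree `p` of `C` have
trivial `H¹` and `H²` of order dividing `p`, then every `p`-subgroup `H ≤ Γ` has `|H²(H, C)|`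
dividing `|H|`. -/
theorem dv_pgroup_H2' {k Γ : Type u} [CommRing k] [Group Γ] [Finite Γ] (p : ℕ) [Fact p.Prime]
    (C : Rep k Γ) (hcyc : dv_CyclicLayers p C) (H : Subgroup Γ) (hH : IsPGroup p H) :
    Finite (H2 (Rep.res H.subtype C)) ∧ Nat.card (H2 (Rep.res H.subtype C)) ∣ Nat.card H :=
  dv_pgroup_H2 p C (dv_infRes2 C) hcyc H hH

end Fermat.Agent.S55
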