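/-
S55 (Poitou–Tate), block G3: cohomology of a finite cyclic group in explicit index form.
`|Hⁱ(G, A)|` for `G = ⟨g⟩` finite cyclic equals `[ker(ρ g - 1) : im N]` (`i > 0` even) resp.
`[ker N : im(ρ g - 1)]` (`i` odd), as relative indices of additive subgroups of `A`.
Owner: helper10.  Prefix `dv_`.
-/
import Mathlib

set_option autoImplicit false

noncomputable section

namespace Fermat.Agent.S55

open CategoryTheory groupCohomology Rep.FiniteCyclicGroup

universe u

/-- Cardinality of the target of a surjective linear map with known kernel, as a relative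
index. -/
theorem dv_card_eq_relIndex {k M Q : Type*} [Ring k] [AddCommGroup M] [Module k M]
    [AddCommGroup Q] [Module k Q] (K : Submodule k M) (π : K →ₗ[k] Q)
    (hπ : Function.Surjective π) (R : Submodule k M)
    (hker : ∀ x : K, π x = 0 ↔ (x : M) ∈ R) :
    Nat.card Q = R.toAddSubgroup.relIndex K.toAddSubgroup := by
  have e := (LinearMap.quotKerEquivOfSurjective π hπ).toEquiv
  rw [← Nat.card_congr e]
  have h1 : Nat.card (K ⧸ LinearMap.ker π) = (LinearMap.ker π).toAddSubgroup.index := rfl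
  rw [h1, AddSubgroup.relIndex]
  congr 1
  ext x
  simp only [Submodule.mem_toAddSubgroup, LinearMap.mem_ker, hker]
  rfl

section Cyclic

variable {k G : Type u} [CommRing k] [CommGroup G] [Fintype G] (A : Rep k G) (g : G)

/-- `|Hⁱ(G, A)| = [ker(ρ g - 1) : im N]` for `i > 0` even, `G = ⟨g⟩` finite cyclic. -/
theorem dv_cyclic_card_even (hg : ∀ x, x ∈ Subgroup.zpowers g) (i : ℕ) [NeZero i]
    (hi : Even i) :
    Nat.card (groupCohomology A i) =
      (LinearMap.range A.norm.hom.toLinearMap).toAddSubgroup.relIndex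
        (LinearMap.ker (Rep.applyAsHom A g - 𝟙 A).hom.toLinearMap).toAddSubgroup := by
  have hepi : Epi (groupCohomologyπEven A g hg i hi) := by
    have h1 : IsIso (ShortComplex.moduleCatCyclesIso (normHomCompSub A g)).inv := Iso.isIso_inv _
    have h3 : IsIso (groupCohomologyIsoEven A g hg i hi).inv := Iso.isIso_inv _
    show Epi (_ ≫ _ ≫ _)
    exact @epi_comp _ _ _ _ _ _ (@IsIso.epi_of_iso _ _ _ _ _ h1) _
      (@epi_comp _ _ _ _ _ _ inferInstance _ (@IsIso.epi_of_iso _ _ _ _ _ h3))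
  exact dv_card_eq_relIndex _ (groupCohomologyπEven A g hg i hi).hom
    ((ModuleCat.epi_iff_surjective _).mp hepi) _
    (fun x => groupCohomologyπEven_eq_zero_iff A g hg i hi x)

/-- `|Hⁱ(G, A)| = [ker N : im(ρ g - 1)]` for `i` odd, `G = ⟨g⟩` finite cyclic. -/
theorem dv_cyclic_card_odd (hg : ∀ x, x ∈ Subgroup.zpowers g) (i : ℕ) (hi : Odd i) :
    Nat.card (groupCohomology A i) =
      (LinearMap.range (Rep.applyAsHom A g - 𝟙 A).hom.toLinearMap).toAddSubgroup.relIndex
        (LinearMap.ker A.norm.hom.toLinearMap).toAddSubgroup := by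
  have hepi : Epi (groupCohomologyπOdd A g hg i hi) := by
    have h1 : IsIso (ShortComplex.moduleCatCyclesIso (subCompNormHom A g)).inv := Iso.isIso_inv _
    have h3 : IsIso (groupCohomologyIsoOdd A g hg i hi).inv := Iso.isIso_inv _
    show Epi (_ ≫ _ ≫ _)
    exact @epi_comp _ _ _ _ _ _ (@IsIso.epi_of_iso _ _ _ _ _ h1) _
      (@epi_comp _ _ _ _ _ _ inferInstance _ (@IsIso.epi_of_iso _ _ _ _ _ h3))
  exact dv_card_eq_relIndex _ (groupCohomologyπOdd A g hg i hi).hom
    ((ModuleCat.epi_iff_surjective _).mp hepi) _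
    (fun x => groupCohomologyπOdd_eq_zero_iff A g hg i hi x)

end Cyclic

section CyclicGroup

variable {k G : Type u} [CommRing k] [Group G] [Fintype G] (A : Rep k G) (g : G)

/-- The additive subgroup `ker(ρ g - 1)` of `A`. -/
def dv_kerSub : AddSubgroup A.V := (LinearMap.ker (A.ρ g - 1)).toAddSubgroup

/-- The additive subgroup `im(ρ g - 1)` of `A`. -/
def dv_rangeSub : AddSubgroup A.V := (LinearMap.range (A.ρ g - 1)).toAddSubgroup

/-- The additive subgroup `ker N` of `A`, `N = ∑ h, ρ h`. -/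
def dv_kerNorm : AddSubgroup A.V := (LinearMap.ker A.ρ.norm).toAddSubgroup

/-- The additive subgroup `im N` of `A`. -/
def dv_rangeNorm : AddSubgroup A.V := (LinearMap.range A.ρ.norm).toAddSubgroup

theorem dv_mem_kerSub (x : A.V) : x ∈ dv_kerSub A g ↔ A.ρ g x = x := by
  simp [dv_kerSub, sub_eq_zero]

theorem dv_mem_rangeSub (x : A.V) : x ∈ dv_rangeSub A g ↔ ∃ y, A.ρ g y - y = x := by
  simp [dv_rangeSub]

theorem dv_mem_kerNorm (x : A.V) : x ∈ dv_kerNorm A ↔ ∑ h : G, A.ρ h x = 0 := by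
  simp [dv_kerNorm, Representation.norm]

theorem dv_mem_rangeNorm (x : A.V) : x ∈ dv_rangeNorm A ↔ ∃ y, ∑ h : G, A.ρ h y = x := by
  simp [dv_rangeNorm, Representation.norm]

/-- `|H²(G, A)| = [ker(ρ g - 1) : im N]` for a finite cyclic group `G = ⟨g⟩`
(`G` only assumed to be a group). -/
theorem dv_cyclic_card_H2 (hg : ∀ x, x ∈ Subgroup.zpowers g) :
    Nat.card (H2 A) = (dv_rangeNorm A).relIndex (dv_kerSub A g) := by
  haveI : IsCyclic G := ⟨g, hg⟩
  letI : CommGroup G := IsCyclic.commGroup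
  exact dv_cyclic_card_even A g hg 2 (by decide)

/-- `|H¹(G, A)| = [ker N : im(ρ g - 1)]` for a finite cyclic group `G = ⟨g⟩`. -/
theorem dv_cyclic_card_H1 (hg : ∀ x, x ∈ Subgroup.zpowers g) :
    Nat.card (H1 A) = (dv_rangeSub A g).relIndex (dv_kerNorm A) := by
  haveI : IsCyclic G := ⟨g, hg⟩
  letI : CommGroup G := IsCyclic.commGroup
  exact dv_cyclic_card_odd A g hg 1 (by decide)

/-- **Cyclic layers of prime degree.** If the Herbrand quotient is `p` (first inequality,
`h0 = p * h1` with `h0 = [ker(ρ g - 1) : im N]`, `h1 = [ker N : im(ρ g - 1)]`, `h1 ≠ 0`) and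
`h0 ≤ p` (second inequality), then `H¹ = 0` and `|H²| = p`. -/
theorem dv_cyclic_of_inequalities (hg : ∀ x, x ∈ Subgroup.zpowers g) {p : ℕ} (hp : 0 < p)
    (h1ne : (dv_rangeSub A g).relIndex (dv_kerNorm A) ≠ 0)
    (hfirst : (dv_rangeNorm A).relIndex (dv_kerSub A g) =
      p * (dv_rangeSub A g).relIndex (dv_kerNorm A))
    (hsecond : (dv_rangeNorm A).relIndex (dv_kerSub A g) ≤ p) :
    Subsingleton (H1 A) ∧ Finite (H2 A) ∧ Nat.card (H2 A) = p := by
  have hc1 := dv_cyclic_card_H1 A g hg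
  have hc2 := dv_cyclic_card_H2 A g hg
  set h1 := (dv_rangeSub A g).relIndex (dv_kerNorm A)
  set h0 := (dv_rangeNorm A).relIndex (dv_kerSub A g)
  have h1pos : 0 < h1 := Nat.pos_of_ne_zero h1ne
  have h1one : h1 = 1 := by
    by_contra hne
    have : 2 ≤ h1 := by omega
    have : p * 2 ≤ p * h1 := Nat.mul_le_mul_left p this
    omega
  have h0p : h0 = p := by rw [hfirst, h1one, mul_one]
  refine ⟨?_, ?_, by rw [hc2, h0p]⟩
  · rw [h1one] at hc1
    exact (Nat.card_eq_one_iff_unique.mp hc1).1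
  · apply Nat.finite_of_card_ne_zero
    rw [hc2, h0p]
    exact hp.ne'

end CyclicGroup

end Fermat.Agent.S55
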